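import Mathlib.NumberTheory.Padics.PadicIntegers
import Fermat.Prelude.Def_GaloisRep_DeformationRingData
import Fermat.Prelude.Def_GaloisRep_LocalConditions

/-!
# Deformations with signed lines

A 2-adic deformation of `ρbar` comes with, at each place of a finite set `S`, a stable saturated
line whose quotient is unramified and on which a chosen Frobenius acts by a sign `u` (`u ^ 2 = 1`).
Outside `S` it is unramified; its determinant is cyclotomic.
-/

set_option autoImplicit false

noncomputable section

open IsLocalRing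

namespace Fermat.Agent.TwoAdic

local notation "Qb" => AlgebraicClosure ℚ
local notation "Γℚ" => (AlgebraicClosure ℚ ≃ₐ[ℚ] AlgebraicClosure ℚ)

/-- A place and a Frobenius element at each element of `S`. -/
structure SignedPlaces (S : Finset ℕ) where
  place : S → ValuationSubring (AlgebraicClosure ℚ)
  frob : S → (AlgebraicClosure ℚ ≃ₐ[ℚ] AlgebraicClosure ℚ)

/-- A stable line at `P` with unramified quotient on which `F` acts by `u`. -/
def HasSignedLineAt {A : Type} [CommRing A] [IsLocalRing A] (ρ : GaloisRepAdic A)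
    (P : ValuationSubring (AlgebraicClosure ℚ))
    (F : AlgebraicClosure ℚ ≃ₐ[ℚ] AlgebraicClosure ℚ) (u : A) : Prop :=
  ∃ L : Submodule A ρ.V,
    (∃ b : Module.Basis (Fin 2) A ρ.V, L = A ∙ b 0) ∧
    (∀ σ ∈ P.decompositionSubgroup ℚ, ∀ x ∈ L, ρ.ρ σ x ∈ L) ∧
    (∀ σ ∈ P.inertiaSubgroupIn ℚ, ∀ x : ρ.V, ρ.ρ σ x - x ∈ L) ∧
    ∀ x : ρ.V, ρ.ρ F x - u • x ∈ L

variable {S : Finset ℕ}

/-- The deformation problem: a representation together with a sign at each element of `S`. -/
structure IsSignedType (pl : SignedPlaces S) {A : Type} [CommRing A] [IsLocalRing A]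
    (ρ : GaloisRepAdic A) (u : S → A) : Prop where
  det : ρ.DetIsCyclotomic 2
  unramified : ∀ q : ℕ, q.Prime → q ∉ S → ρ.IsUnramifiedAt q
  sq_eq_one : ∀ v, u v ^ 2 = 1
  line : ∀ v, HasSignedLineAt ρ (pl.place v) (pl.frob v) (u v)

/-- Residual hypotheses: the chosen Frobenius elements act as transvections, commuting with their
decomposition groups; unramified outside `S`. -/
structure IsResidualSigned (ρbar : ResidualGaloisRep (ResidueField ℤ_[2]))
    (pl : SignedPlaces S) : Prop where
  unramified : ∀ q : ℕ, q.Prime → q ∉ S → ρbar.IsUnramifiedAt q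
  frob_mem : ∀ v, pl.frob v ∈ (pl.place v).decompositionSubgroup ℚ
  frob_ne_one : ∀ v, ρbar.ρ (pl.frob v) ≠ 1
  frob_sq : ∀ v, ρbar.ρ (pl.frob v) * ρbar.ρ (pl.frob v) = 1
  commute : ∀ v, ∀ σ ∈ (pl.place v).decompositionSubgroup ℚ,
    Commute (ρbar.ρ σ) (ρbar.ρ (pl.frob v))

/-- A universal ring of deformations with signed lines. -/
structure SignedRingData (ρbar : ResidualGaloisRep (ResidueField ℤ_[2]))
    (pl : SignedPlaces S) : Type 1 where
  R : Type
  [instCommRing : CommRing R]
  [instIsLocalRing : IsLocalRing R]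
  [instIsNoetherianRing : IsNoetherianRing R]
  [instIsAdicComplete : IsAdicComplete (maximalIdeal R) R]
  [instAlgebra : Algebra ℤ_[2] R]
  [instIsLocalHom : IsLocalHom (algebraMap ℤ_[2] R)]
  residue_surjective : Function.Surjective (residue R ∘ algebraMap ℤ_[2] R)
  ρ : GaloisRepAdic R
  u : S → R
  isSignedType : IsSignedType pl ρ u
  residual_isEquiv : ρ.residual.IsEquiv
    (ρbar.baseChangeAlong (ResidueField.map (algebraMap ℤ_[2] R)))
  universal : ∀ (A : Type) [CommRing A] [IsLocalRing A] [IsNoetherianRing A]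
      [IsAdicComplete (maximalIdeal A) A] [Algebra ℤ_[2] A] [IsLocalHom (algebraMap ℤ_[2] A)],
      Function.Surjective (residue A ∘ algebraMap ℤ_[2] A) →
      ∀ (ρA : GaloisRepAdic A) (uA : S → A), IsSignedType pl ρA uA →
        ρA.residual.IsEquiv
          (ρbar.baseChangeAlong (ResidueField.map (algebraMap ℤ_[2] A))) →
        ∃! φ : R →ₐ[ℤ_[2]] A,
          ∃ hφ : IsLocalHom (φ : R →+* A),
            (ρ.baseChangeAlong (φ : R →+* A) hφ).IsEquiv ρA ∧ ∀ v, φ (u v) = uA v

attribute [instance] SignedRingData.instCommRing SignedRingData.instIsLocalRing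
  SignedRingData.instIsNoetherianRing SignedRingData.instIsAdicComplete
  SignedRingData.instAlgebra SignedRingData.instIsLocalHom

end Fermat.Agent.TwoAdic
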