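import Fermat.Agent.TwoAdic.Universal.Defs
import Mathlib.NumberTheory.Padics.RingHoms

/-!
# The residual representation as a signed deformation

Over `𝔽₂` the determinant is trivially cyclotomic, and the fixed line of a transvection is stable,
with trivial quotient, under everything commuting with it.
-/

set_option autoImplicit false

noncomputable section

open IsLocalRing Module

namespace Fermat.Agent.TwoAdic

local notation "k₂" => ResidueField ℤ_[2]

theorem residueField_two_eq_zero_or_one (z : k₂) : z = 0 ∨ z = 1 := by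
  obtain ⟨c, rfl⟩ := residue_surjective z
  obtain ⟨-, hc⟩ := PadicInt.zmodRepr_spec c
  have : residue ℤ_[2] c = residue ℤ_[2] (PadicInt.zmodRepr c : ℤ_[2]) := by
    rw [← sub_eq_zero, ← map_sub, residue_eq_zero_iff]; exact hc
  rw [this, map_natCast]
  have hlt : PadicInt.zmodRepr c < 2 := PadicInt.zmodRepr_lt_p c
  interval_cases h : PadicInt.zmodRepr c <;> simp

theorem residueField_two_eq_one {z : k₂} (h : z ≠ 0) : z = 1 :=
  (residueField_two_eq_zero_or_one z).resolve_left h

theorem two_eq_zero_residueField : (2 : k₂) = 0 := by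
  rw [← map_ofNat (residue ℤ_[2]) 2, residue_eq_zero_iff, PadicInt.maximalIdeal_eq_span_p]
  exact Ideal.mem_span_singleton_self _

theorem detIsCyclotomic_ofResidual (ρbar : ResidualGaloisRep k₂) :
    (GaloisRepAdic.ofResidualGaloisRep ρbar).DetIsCyclotomic 2 := by
  refine ⟨?_, fun n σ a ha => ?_⟩
  · have : ((2 : ℕ) : k₂) = 0 := by simpa using two_eq_zero_residueField
    rw [this]
    exact Submodule.zero_mem _
  rcases Nat.eq_zero_or_pos n with rfl | hn
  · simp [Ideal.span_singleton_one]
  have hodd : Odd a := by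
    rcases Nat.even_or_odd a with he | ho
    · exfalso
      have h := ha (-1) (by rw [Even.neg_one_pow (Nat.even_pow.mpr ⟨even_two, hn.ne'⟩)])
      rw [map_neg, map_one, he.neg_one_pow] at h
      exact absurd h (by norm_num)
    · exact ho
  obtain ⟨c, rfl⟩ := hodd
  have hu : IsUnit (LinearMap.det ((GaloisRepAdic.ofResidualGaloisRep ρbar).ρ σ)) :=
    ((GaloisRepAdic.ofResidualGaloisRep ρbar).det σ).isUnit
  rw [residueField_two_eq_one hu.ne_zero, Nat.cast_add, Nat.cast_mul, Nat.cast_ofNat,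
    two_eq_zero_residueField, zero_mul, zero_add, Nat.cast_one, sub_self]
  exact Submodule.zero_mem _

/-- The fixed line of a residual transvection. -/
theorem hasSignedLineAt_ofResidual (ρbar : ResidualGaloisRep k₂)
    (P : ValuationSubring (AlgebraicClosure ℚ))
    (F : AlgebraicClosure ℚ ≃ₐ[ℚ] AlgebraicClosure ℚ) (hne : ρbar.ρ F ≠ 1)
    (hsq : ρbar.ρ F * ρbar.ρ F = 1)
    (hcomm : ∀ σ ∈ P.decompositionSubgroup ℚ, Commute (ρbar.ρ σ) (ρbar.ρ F)) :
    HasSignedLineAt (GaloisRepAdic.ofResidualGaloisRep ρbar) P F 1 := by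
  set N : Module.End k₂ ρbar.V := ρbar.ρ F - 1 with hN
  have hNN : ∀ x, N (N x) = 0 := fun x => by
    have e : N * N = 0 := by
      have h2 : (2 : k₂) • (ρbar.ρ F - 1) = 0 := by rw [two_eq_zero_residueField, zero_smul]
      rw [two_smul] at h2
      calc N * N = ρbar.ρ F * ρbar.ρ F - 1 - ((ρbar.ρ F - 1) + (ρbar.ρ F - 1)) := by
            rw [hN]; noncomm_ring
        _ = 0 := by rw [hsq, h2, sub_self, sub_zero]
    exact LinearMap.congr_fun e x
  obtain ⟨y, hy⟩ : ∃ y, N y ≠ 0 := by
    by_contra h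
    push Not at h
    exact hne (sub_eq_zero.mp (LinearMap.ext h))
  have hli : LinearIndependent k₂ ![N y, y] := by
    rw [LinearIndependent.pair_iff]
    intro s t hst
    have h1 := congrArg N hst
    rw [map_add, map_smul, map_smul, hNN, smul_zero, zero_add, map_zero] at h1
    have ht : t = 0 := (smul_eq_zero.mp h1).resolve_right hy
    subst ht
    rw [zero_smul, add_zero] at hst
    exact ⟨(smul_eq_zero.mp hst).resolve_right hy, rfl⟩
  let b : Basis (Fin 2) k₂ ρbar.V :=
    basisOfLinearIndependentOfCardEqFinrank hli (by rw [ρbar.finrank_eq]; rfl)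
  have hb : ∀ i, b i = ![N y, y] i := fun i => by
    simp [b]
  have hrange : ∀ x, N x ∈ k₂ ∙ N y := fun x => by
    rw [← b.sum_repr x, Fin.sum_univ_two, hb, hb, map_add, map_smul, map_smul]
    simp only [Matrix.cons_val_zero, Matrix.cons_val_one, hNN, smul_zero, zero_add]
    exact Submodule.smul_mem _ _ (Submodule.mem_span_singleton_self _)
  have hD : ∀ σ ∈ P.decompositionSubgroup ℚ, ∀ x, ρbar.ρ σ x - x ∈ k₂ ∙ N y := by
    intro σ hσ
    have hc : ∀ x, N (ρbar.ρ σ x) = ρbar.ρ σ (N x) := fun x => by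
      have := LinearMap.congr_fun (hcomm σ hσ) x
      simp only [Module.End.mul_apply] at this
      simp [hN, this]
    obtain ⟨c, hcy⟩ := Submodule.mem_span_singleton.mp ((hc y) ▸ hrange (ρbar.ρ σ y))
    have hinj : Function.Injective (ρbar.ρ σ) :=
      Function.LeftInverse.injective (g := ρbar.ρ σ⁻¹) fun x => by
        rw [← Module.End.mul_apply, ← map_mul, inv_mul_cancel, map_one]; rfl
    have hc1 : c = 1 := residueField_two_eq_one fun h0 => hy (hinj (by
      rw [← hcy, h0, zero_smul, map_zero]))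
    rw [hc1, one_smul] at hcy
    have hker : ∀ x, N x = 0 → x ∈ k₂ ∙ N y := fun x hx => by
      rw [← b.sum_repr x, Fin.sum_univ_two, hb, hb] at hx ⊢
      simp only [Matrix.cons_val_zero, Matrix.cons_val_one, map_add, map_smul, hNN, smul_zero,
        zero_add, smul_eq_zero, hy, or_false] at hx ⊢
      rw [hx, zero_smul, add_zero]
      exact Submodule.smul_mem _ _ (Submodule.mem_span_singleton_self _)
    intro x
    refine hker _ ?_
    rw [map_sub, hc]
    obtain ⟨d, hd⟩ := Submodule.mem_span_singleton.mp (hrange x)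
    rw [← hd, map_smul, ← hcy, sub_self]
  have h1 : ∀ σ ∈ P.decompositionSubgroup ℚ, ∀ x ∈ k₂ ∙ N y, ρbar.ρ σ x ∈ k₂ ∙ N y :=
    fun σ hσ x hx => by simpa using Submodule.add_mem _ (hD σ hσ x) hx
  have h2 : ∀ σ ∈ P.inertiaSubgroupIn ℚ, σ ∈ P.decompositionSubgroup ℚ := fun σ hσ => by
    obtain ⟨h, -, rfl⟩ := Subgroup.mem_map.mp hσ
    exact h.2
  have h3 : ∀ x : ρbar.V, ρbar.ρ F x - (1 : k₂) • x ∈ k₂ ∙ N y := fun x => by
    have := hrange x
    simpa [hN] using this
  exact ⟨k₂ ∙ N y, ⟨b, congrArg (fun v : ρbar.V => k₂ ∙ v) (hb 0).symm⟩, h1,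
    fun σ hσ x => hD σ (h2 σ hσ) x, h3⟩

variable {S : Finset ℕ} {ρbar : ResidualGaloisRep k₂} {pl : SignedPlaces S}

theorem IsResidualSigned.isSignedType (h : IsResidualSigned ρbar pl) :
    IsSignedType pl (GaloisRepAdic.ofResidualGaloisRep ρbar) fun _ => 1 where
  det := detIsCyclotomic_ofResidual ρbar
  unramified := h.unramified
  sq_eq_one _ := one_pow 2
  line v := hasSignedLineAt_ofResidual ρbar _ _ (h.frob_ne_one v) (h.frob_sq v) (h.commute v)

end Fermat.Agent.TwoAdic
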