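import Fermat.Agent.TwoAdic.Universal.Main

/-!
# Points of the universal ring of deformations with signed lines

Uniqueness of points, their traces, and surjectivity onto a target generated by traces and signs.
-/

set_option autoImplicit false

noncomputable section

open IsLocalRing

namespace Fermat.Agent.TwoAdic

variable {S : Finset ℕ} {ρbar : ResidualGaloisRep (ResidueField ℤ_[2])} {pl : SignedPlaces S}
  (D : SignedRingData ρbar pl)
  {A : Type} [CommRing A] [IsLocalRing A] [IsNoetherianRing A]
  [IsAdicComplete (maximalIdeal A) A] [Algebra ℤ_[2] A] [IsLocalHom (algebraMap ℤ_[2] A)]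

namespace SignedRingData

/-- The classifying homomorphism. -/
def classify (hA : Function.Surjective (residue A ∘ algebraMap ℤ_[2] A)) (ρA : GaloisRepAdic A)
    (uA : S → A) (hρA : IsSignedType pl ρA uA)
    (hres : ρA.residual.IsEquiv (ρbar.baseChangeAlong (ResidueField.map (algebraMap ℤ_[2] A)))) :
    D.R →ₐ[ℤ_[2]] A :=
  (D.universal A hA ρA uA hρA hres).exists.choose

variable (hA : Function.Surjective (residue A ∘ algebraMap ℤ_[2] A)) (ρA : GaloisRepAdic A)
  (uA : S → A) (hρA : IsSignedType pl ρA uA)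
  (hres : ρA.residual.IsEquiv (ρbar.baseChangeAlong (ResidueField.map (algebraMap ℤ_[2] A))))

theorem isLocalHom_classify : IsLocalHom (D.classify hA ρA uA hρA hres : D.R →+* A) :=
  (D.universal A hA ρA uA hρA hres).exists.choose_spec.choose

theorem classify_isEquiv :
    (D.ρ.baseChangeAlong (D.classify hA ρA uA hρA hres : D.R →+* A)
      (D.isLocalHom_classify hA ρA uA hρA hres)).IsEquiv ρA :=
  (D.universal A hA ρA uA hρA hres).exists.choose_spec.choose_spec.1

theorem classify_u (v : S) : D.classify hA ρA uA hρA hres (D.u v) = uA v :=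
  (D.universal A hA ρA uA hρA hres).exists.choose_spec.choose_spec.2 v

theorem eq_classify (φ : D.R →ₐ[ℤ_[2]] A) (hφ : IsLocalHom (φ : D.R →+* A))
    (h : (D.ρ.baseChangeAlong (φ : D.R →+* A) hφ).IsEquiv ρA) (hu : ∀ v, φ (D.u v) = uA v) :
    φ = D.classify hA ρA uA hρA hres :=
  (D.universal A hA ρA uA hρA hres).unique ⟨hφ, h, hu⟩
    (D.universal A hA ρA uA hρA hres).exists.choose_spec

theorem classify_trace (σ : AlgebraicClosure ℚ ≃ₐ[ℚ] AlgebraicClosure ℚ) :
    D.classify hA ρA uA hρA hres (D.ρ.trace σ) = ρA.trace σ := by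
  obtain ⟨e⟩ := D.classify_isEquiv hA ρA uA hρA hres
  let φ : D.R →+* A := D.classify hA ρA uA hρA hres
  let : Algebra D.R A := φ.toAlgebra
  have h1 : (D.ρ.baseChangeAlong φ (D.isLocalHom_classify hA ρA uA hρA hres)).trace σ =
      φ (D.ρ.trace σ) :=
    LinearMap.trace_baseChange (D.ρ.ρ σ) A
  refine h1.symm.trans ?_
  show LinearMap.trace A _ _ = LinearMap.trace A _ _
  rw [← LinearMap.trace_conj' _ e.toLinearEquiv]
  congr 1
  refine LinearMap.ext fun x => ?_
  rw [LinearEquiv.conj_apply_apply, e.map_apply, LinearEquiv.apply_symm_apply]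

/-- The classifying map is onto a target generated by traces and signs. -/
theorem classify_surjective
    (hgen : Algebra.adjoin ℤ_[2] (Set.range ρA.trace ∪ Set.range uA) = ⊤) :
    Function.Surjective (D.classify hA ρA uA hρA hres) := by
  rw [← AlgHom.range_eq_top, eq_top_iff, ← hgen, Algebra.adjoin_le_iff]
  rintro _ (⟨σ, rfl⟩ | ⟨v, rfl⟩)
  · exact ⟨_, D.classify_trace hA ρA uA hρA hres σ⟩
  · exact ⟨_, D.classify_u hA ρA uA hρA hres v⟩

omit [IsNoetherianRing A] [IsAdicComplete (maximalIdeal A) A] in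
/-- Points push forward signed deformations. -/
theorem isSignedType_map (φ : D.R →+* A) (hφ : IsLocalHom φ) :
    IsSignedType pl (D.ρ.baseChangeAlong φ hφ) (φ ∘ D.u) :=
  D.isSignedType.baseChangeAlong φ hφ

end SignedRingData

end Fermat.Agent.TwoAdic
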