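import Fermat.Agent.TwoAdic.Universal.Defs
import Fermat.Agent.RT.LocalAtP.Conditions

/-!
# The equations of a signed line

When `ρ(F) - u` has a unimodular column `w` in some basis, the line is spanned by `w`, and a
signed line exists if and only if some explicit elements of the ring vanish.  These elements are
natural in the ring.
-/

set_option autoImplicit false

noncomputable section

open IsLocalRing Module Fermat.Agent.Deformation

namespace Fermat.Agent.TwoAdic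

variable {A B : Type} [CommRing A] [CommRing B]

/-- The determinant of two vectors. -/
def cross (a b : Fin 2 → A) : A := a 0 * b 1 - a 1 * b 0

theorem map_cross (φ : A →+* B) (a b : Fin 2 → A) : φ (cross a b) = cross (φ ∘ a) (φ ∘ b) := by
  simp [cross]

theorem cross_smul_smul (c d : A) (e : Fin 2 → A) : cross (c • e) (d • e) = 0 := by
  simp [cross]; ring

/-- A vector with vanishing determinant against a unimodular one is a multiple of it. -/
theorem exists_smul_eq_of_cross_eq_zero {w x : Fin 2 → A} (hw : ∃ i, IsUnit (w i))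
    (h : cross w x = 0) : ∃ c : A, x = c • w := by
  obtain ⟨i, hi⟩ := hw
  obtain ⟨s, hs⟩ := hi
  refine ⟨x i * (↑s⁻¹ : A), funext fun k => ?_⟩
  have hs' : (↑s⁻¹ : A) * w i = 1 := by rw [← hs, Units.inv_mul]
  have h' : w 0 * x 1 = w 1 * x 0 := sub_eq_zero.mp h
  have key : x k * w i = x i * w k := by
    fin_cases i <;> fin_cases k <;>
      first
        | rfl
        | (show x 1 * w 0 = x 0 * w 1; linear_combination h')
        | (show x 0 * w 1 = x 1 * w 0; linear_combination -h')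
  rw [Pi.smul_apply, smul_eq_mul]
  linear_combination (↑s⁻¹ : A) * key - x k * hs'

/-- The column `j` of `M - u`. -/
def pivot (M : Mat A) (u : A) (j : Fin 2) : Fin 2 → A := fun i => (M - u • (1 : Mat A)) i j

theorem map_pivot (φ : A →+* B) (M : Mat A) (u : A) (j : Fin 2) :
    φ ∘ pivot M u j = pivot (M.map φ) (φ u) j := by
  funext i
  by_cases h : i = j <;> simp [pivot, h]

/-- The elements whose vanishing means that the column `j` of `r F - u` spans a signed line. -/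
def lineVals (r : Γ →* Mat A) (P : ValuationSubring (AlgebraicClosure ℚ)) (F : Γ) (u : A)
    (j : Fin 2) : Set A :=
  {a | (∃ σ ∈ P.decompositionSubgroup ℚ,
      a = cross (pivot (r F) u j) (Matrix.mulVec (r σ) (pivot (r F) u j))) ∨
    (∃ σ ∈ P.inertiaSubgroupIn ℚ, ∃ i, a = cross (pivot (r F) u j) (pivot (r σ) 1 i)) ∨
    ∃ i, a = cross (pivot (r F) u j) (pivot (r F) u i)}

theorem map_mem_lineVals (φ : A →+* B) {r : Γ →* Mat A}
    {P : ValuationSubring (AlgebraicClosure ℚ)} {F : Γ} {u : A} {j : Fin 2} {b : B}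
    (hb : b ∈ lineVals (mapRep φ r) P F (φ u) j) :
    ∃ a ∈ lineVals r P F u j, φ a = b := by
  have hw : φ ∘ pivot (r F) u j = pivot (mapRep φ r F) (φ u) j := map_pivot φ _ _ _
  have hmv : ∀ (σ : Γ) (x : Fin 2 → A),
      φ ∘ Matrix.mulVec (r σ) x = Matrix.mulVec (mapRep φ r σ) (φ ∘ x) := fun σ x =>
    funext fun i => RingHom.map_mulVec φ (r σ) x i
  rcases hb with ⟨σ, hσ, rfl⟩ | ⟨σ, hσ, i, rfl⟩ | ⟨i, rfl⟩
  · exact ⟨_, Or.inl ⟨σ, hσ, rfl⟩, by rw [map_cross, hmv, hw]⟩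
  · refine ⟨_, Or.inr (Or.inl ⟨σ, hσ, i, rfl⟩), ?_⟩
    rw [map_cross, hw, map_pivot, map_one, mapRep_apply φ r σ]
  · exact ⟨_, Or.inr (Or.inr ⟨i, rfl⟩), by rw [map_cross, hw, map_pivot, mapRep_apply φ r F]⟩

theorem map_lineVals_eq_zero_iff (φ : A →+* B) {r : Γ →* Mat A}
    {P : ValuationSubring (AlgebraicClosure ℚ)} {F : Γ} {u : A} {j : Fin 2} :
    (∀ a ∈ lineVals r P F u j, φ a = 0) ↔ ∀ b ∈ lineVals (mapRep φ r) P F (φ u) j, b = 0 := by
  constructor
  · intro h b hb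
    obtain ⟨a, ha, rfl⟩ := map_mem_lineVals φ hb
    exact h a ha
  · intro h a ha
    refine h _ ?_
    have hw : φ ∘ pivot (r F) u j = pivot (mapRep φ r F) (φ u) j := map_pivot φ _ _ _
    rcases ha with ⟨σ, hσ, rfl⟩ | ⟨σ, hσ, i, rfl⟩ | ⟨i, rfl⟩
    · refine Or.inl ⟨σ, hσ, ?_⟩
      rw [map_cross, hw, ← hw]
      congr 1
      funext i
      exact RingHom.map_mulVec φ (r σ) _ i
    · exact Or.inr (Or.inl ⟨σ, hσ, i, by rw [map_cross, hw, map_pivot, map_one, mapRep_apply φ r σ]⟩)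
    · exact Or.inr (Or.inr ⟨i, by rw [map_cross, hw, map_pivot, mapRep_apply φ r F]⟩)

variable [IsLocalRing A] [IsLocalRing B]

theorem HasSignedLineAt.of_isEquiv {ρ ρ' : GaloisRepAdic A}
    {P : ValuationSubring (AlgebraicClosure ℚ)} {F : Γ} {u : A} (he : ρ.IsEquiv ρ')
    (h : HasSignedLineAt ρ P F u) : HasSignedLineAt ρ' P F u := by
  obtain ⟨e⟩ := he
  obtain ⟨L, ⟨b, hb⟩, hst, hI, hF⟩ := h
  refine ⟨L.map e.toLinearEquiv.toLinearMap, ⟨b.map e.toLinearEquiv, ?_⟩, ?_, ?_, ?_⟩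
  · rw [hb, Submodule.map_span, Set.image_singleton]; rfl
  · rintro σ hσ _ ⟨x, hx, rfl⟩
    exact ⟨ρ.ρ σ x, hst σ hσ x hx, e.map_apply σ x⟩
  · intro σ hσ y
    obtain ⟨x, rfl⟩ := e.toLinearEquiv.surjective y
    exact ⟨_, hI σ hσ x, by simp [e.map_apply]⟩
  · intro y
    obtain ⟨x, rfl⟩ := e.toLinearEquiv.surjective y
    exact ⟨_, hF x, by simp [e.map_apply]⟩

/-- A signed line in terms of an adapted basis. -/
theorem hasSignedLineAt_iff_basis {ρ : GaloisRepAdic A}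
    {P : ValuationSubring (AlgebraicClosure ℚ)} {F : Γ} {u : A} :
    HasSignedLineAt ρ P F u ↔ ∃ b : Basis (Fin 2) A ρ.V,
      (∀ σ ∈ P.decompositionSubgroup ℚ, matOf ρ.ρ b σ 1 0 = 0) ∧
      (∀ σ ∈ P.inertiaSubgroupIn ℚ, matOf ρ.ρ b σ 1 0 = 0 ∧ matOf ρ.ρ b σ 1 1 = 1) ∧
      matOf ρ.ρ b F 1 0 = 0 ∧ matOf ρ.ρ b F 1 1 = u := by
  have hmem : ∀ (b : Basis (Fin 2) A ρ.V) (x : ρ.V), x ∈ A ∙ b 0 ↔ b.repr x 1 = 0 := by
    intro b x
    constructor
    · rintro hx
      obtain ⟨c, rfl⟩ := Submodule.mem_span_singleton.mp hx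
      simp
    · intro hx
      refine Submodule.mem_span_singleton.mpr ⟨b.repr x 0, ?_⟩
      conv_rhs => rw [← b.sum_repr x, Fin.sum_univ_two, hx, zero_smul, add_zero]
  constructor
  · rintro ⟨L, ⟨b, rfl⟩, hst, hI, hF⟩
    refine ⟨b, fun σ hσ => ?_, fun σ hσ => ⟨?_, ?_⟩, ?_, ?_⟩
    · rw [matOf_apply, LinearMap.toMatrix_apply]
      exact (hmem b _).mp (hst σ hσ _ (Submodule.mem_span_singleton_self _))
    · have := (hmem b _).mp (hI σ hσ (b 0))
      rw [matOf_apply, LinearMap.toMatrix_apply]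
      simpa using this
    · have := (hmem b _).mp (hI σ hσ (b 1))
      rw [matOf_apply, LinearMap.toMatrix_apply]
      simpa [sub_eq_zero] using this
    · have := (hmem b _).mp (hF (b 0))
      rw [matOf_apply, LinearMap.toMatrix_apply]
      simpa using this
    · have := (hmem b _).mp (hF (b 1))
      rw [matOf_apply, LinearMap.toMatrix_apply]
      simpa [sub_eq_zero] using this
  · rintro ⟨b, hD, hI, hF0, hF1⟩
    simp only [matOf_apply, LinearMap.toMatrix_apply] at hD hI hF0 hF1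
    have hlin : ∀ (f : Module.End A ρ.V), b.repr (f (b 0)) 1 = 0 → b.repr (f (b 1)) 1 = 0 →
        ∀ x, f x ∈ A ∙ b 0 := by
      intro f h0 h1 x
      rw [hmem, ← b.sum_repr x, Fin.sum_univ_two, map_add, map_smul, map_smul, map_add, map_smul,
        map_smul]
      simp [h0, h1]
    refine ⟨A ∙ b 0, ⟨b, rfl⟩, fun σ hσ x hx => ?_, fun σ hσ x => ?_, fun x => ?_⟩
    · obtain ⟨c, rfl⟩ := Submodule.mem_span_singleton.mp hx
      rw [map_smul]
      exact Submodule.smul_mem _ _ ((hmem b _).mpr (hD σ hσ))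
    · exact hlin (ρ.ρ σ - 1) (by simp [(hI σ hσ).1]) (by simp [(hI σ hσ).2]) x
    · exact hlin (ρ.ρ F - u • 1) (by simp [hF0]) (by simp [hF1]) x

theorem HasSignedLineAt.baseChangeAlong {ρ : GaloisRepAdic A}
    {P : ValuationSubring (AlgebraicClosure ℚ)} {F : Γ} {u : A} (φ : A →+* B)
    (hφ : IsLocalHom φ) (h : HasSignedLineAt ρ P F u) :
    HasSignedLineAt (ρ.baseChangeAlong φ hφ) P F (φ u) := by
  obtain ⟨b, hD, hI, hF0, hF1⟩ := hasSignedLineAt_iff_basis.mp h
  obtain ⟨b', hb'⟩ := exists_basis_baseChangeAlong ρ b φ hφ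
  refine hasSignedLineAt_iff_basis.mpr ⟨b', fun σ hσ => ?_, fun σ hσ => ⟨?_, ?_⟩, ?_, ?_⟩ <;>
    rw [hb', mapRep_apply, Matrix.map_apply]
  · rw [hD σ hσ, map_zero]
  · rw [(hI σ hσ).1, map_zero]
  · rw [(hI σ hσ).2, map_one]
  · rw [hF0, map_zero]
  · rw [hF1]

/-- With a unimodular column of `ρ F - u` the line equations characterise signed lines. -/
theorem hasSignedLineAt_iff {ρ : GaloisRepAdic A} (b : Basis (Fin 2) A ρ.V)
    {P : ValuationSubring (AlgebraicClosure ℚ)} {F : Γ} {u : A} {j : Fin 2}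
    (hw : ∃ i, IsUnit (pivot (matOf ρ.ρ b F) u j i)) :
    HasSignedLineAt ρ P F u ↔ ∀ a ∈ lineVals (matOf ρ.ρ b) P F u j, a = 0 := by
  set r := matOf ρ.ρ b with hr
  set w := pivot (r F) u j with hwdef
  have hcoord : ∀ (σ : Γ) (x : ρ.V),
      ⇑(b.repr (ρ.ρ σ x)) = Matrix.mulVec (r σ) ⇑(b.repr x) := fun σ x => by
    rw [hr, matOf_apply, LinearMap.toMatrix_mulVec_repr]
  have hsingle : ∀ i : Fin 2, ⇑(b.repr (b i)) = Pi.single i (1 : A) := fun i => by
    rw [b.repr_self]; exact (Finsupp.single_eq_pi_single i 1)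
  have hpiv : ∀ (σ : Γ) (c : A) (i : Fin 2),
      ⇑(b.repr (ρ.ρ σ (b i) - c • b i)) = pivot (r σ) c i := by
    intro σ c i
    funext k
    rw [map_sub, map_smul, Finsupp.sub_apply, Finsupp.smul_apply, hsingle]
    have : b.repr (ρ.ρ σ (b i)) k = r σ k i := by
      rw [hr, matOf_apply, LinearMap.toMatrix_apply]
    by_cases hk : k = i
    · subst hk; simp [pivot, this]
    · simp [pivot, this, hk]
  constructor
  · rintro ⟨L, ⟨b₁, rfl⟩, hst, hI, hF⟩
    set e := ⇑(b.repr (b₁ 0)) with he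
    have hmul : ∀ x ∈ A ∙ b₁ 0, ∃ c : A, ⇑(b.repr x) = c • e := by
      intro x hx
      obtain ⟨c, rfl⟩ := Submodule.mem_span_singleton.mp hx
      exact ⟨c, by rw [map_smul, Finsupp.coe_smul]⟩
    have hwL : ρ.ρ F (b j) - u • b j ∈ A ∙ b₁ 0 := hF (b j)
    obtain ⟨c, hc⟩ := hmul _ hwL
    rw [hpiv, ← hwdef] at hc
    intro a ha
    rcases ha with ⟨σ, hσ, rfl⟩ | ⟨σ, hσ, i, rfl⟩ | ⟨i, rfl⟩
    · obtain ⟨d, hd⟩ := hmul _ (hst σ hσ _ hwL)
      rw [hcoord, hpiv, ← hwdef] at hd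
      rw [← hwdef, hd, hc, cross_smul_smul]
    · obtain ⟨d, hd⟩ := hmul _ (show ρ.ρ σ (b i) - (1 : A) • b i ∈ A ∙ b₁ 0 by
        rw [one_smul]; exact hI σ hσ (b i))
      rw [hpiv] at hd
      rw [← hwdef, hd, hc, cross_smul_smul]
    · obtain ⟨d, hd⟩ := hmul _ (hF (b i))
      rw [hpiv] at hd
      rw [← hwdef, hd, hc, cross_smul_smul]
  · intro h
    set wv : ρ.V := ρ.ρ F (b j) - u • b j with hwv
    have hwvr : ⇑(b.repr wv) = w := hpiv F u j
    have hmem : ∀ x : ρ.V, cross w ⇑(b.repr x) = 0 → x ∈ A ∙ wv := by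
      intro x hx
      obtain ⟨c, hc⟩ := exists_smul_eq_of_cross_eq_zero hw hx
      refine Submodule.mem_span_singleton.mpr ⟨c, b.repr.injective (DFunLike.coe_injective ?_)⟩
      rw [map_smul, Finsupp.coe_smul, hwvr, hc]
    have hlin : ∀ (f : Module.End A ρ.V), (∀ i, f (b i) ∈ A ∙ wv) → ∀ x, f x ∈ A ∙ wv := by
      intro f hf x
      rw [← b.sum_repr x, map_sum]
      exact Submodule.sum_mem _ fun i _ => by rw [map_smul]; exact Submodule.smul_mem _ _ (hf i)
    obtain ⟨i₀, hi₀⟩ := hw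
    obtain ⟨b', hb'⟩ : ∃ b' : Basis (Fin 2) A ρ.V, b' 0 = wv := by
      let v : Fin 2 → ρ.V := ![wv, b (if i₀ = 0 then 1 else 0)]
      have hdet : IsUnit (b.det v) := by
        have e0 : b.repr wv 0 = w 0 := congrFun hwvr 0
        have e1 : b.repr wv 1 = w 1 := congrFun hwvr 1
        fin_cases i₀
        · simpa [Basis.det_apply, Matrix.det_fin_two, Basis.toMatrix_apply, v, e0, e1] using hi₀
        · simpa [Basis.det_apply, Matrix.det_fin_two, Basis.toMatrix_apply, v, e0, e1] using hi₀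
      obtain ⟨hli, hsp⟩ := (Basis.is_basis_iff_det b).mpr hdet
      exact ⟨Basis.mk hli hsp.ge, by rw [Basis.mk_apply]; rfl⟩
    refine ⟨A ∙ wv, ⟨b', by rw [hb']⟩, fun σ hσ x hx => ?_, fun σ hσ => ?_, ?_⟩
    · obtain ⟨c, rfl⟩ := Submodule.mem_span_singleton.mp hx
      rw [map_smul]
      refine Submodule.smul_mem _ _ (hmem _ ?_)
      rw [hcoord, hwvr]
      exact h _ (Or.inl ⟨σ, hσ, rfl⟩)
    · intro x
      have := hlin (ρ.ρ σ - 1) (fun i => hmem _ (by
        have e : (ρ.ρ σ - 1) (b i) = ρ.ρ σ (b i) - (1 : A) • b i := by rw [one_smul]; rfl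
        rw [e, hpiv]
        exact h _ (Or.inr (Or.inl ⟨σ, hσ, i, rfl⟩)))) x
      simpa using this
    · intro x
      have := hlin (ρ.ρ F - u • 1) (fun i => hmem _ (by
        have e : (ρ.ρ F - u • 1) (b i) = ρ.ρ F (b i) - u • b i := rfl
        rw [e, hpiv]
        exact h _ (Or.inr (Or.inr ⟨i, rfl⟩)))) x
      simpa using this

variable {S : Finset ℕ} {pl : SignedPlaces S}

theorem IsSignedType.of_isEquiv {ρ ρ' : GaloisRepAdic A} {u : S → A} (he : ρ.IsEquiv ρ')
    (h : IsSignedType pl ρ u) : IsSignedType pl ρ' u where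
  det := Density.adic_detIsCyclotomic_of_isEquiv he h.det
  unramified q hq hqS := Density.adic_isUnramifiedAt_of_isEquiv he (h.unramified q hq hqS)
  sq_eq_one := h.sq_eq_one
  line v := (h.line v).of_isEquiv he

theorem IsSignedType.baseChangeAlong {ρ : GaloisRepAdic A} {u : S → A} (φ : A →+* B)
    (hφ : IsLocalHom φ) (h : IsSignedType pl ρ u) :
    IsSignedType pl (ρ.baseChangeAlong φ hφ) (φ ∘ u) where
  det := RT.detIsCyclotomic_baseChangeAlong φ hφ h.det
  unramified q hq hqS :=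
    (RT.isDescending_isUnramifiedAt (p := 2) q).baseChange φ hφ (h.unramified q hq hqS)
  sq_eq_one v := by simp [← map_pow, h.sq_eq_one v]
  line v := (h.line v).baseChangeAlong φ hφ

end Fermat.Agent.TwoAdic
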