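import Fermat.Agent.Deformation.Levels
import Fermat.Agent.MordellWeil.QuadraticSubgroups
import Mathlib.NumberTheory.Padics.RingHoms

/-!
# First order 2-adic deformations unramified outside a finite set

On the kernel of `ρbar` a first order deformation is a homomorphism into an elementary abelian
2-group, unramified outside `S`; there are finitely many possible kernels (Hermite), so all first
order deformations factor through a fixed finite set of cosets and have bounded coefficient rings.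
-/

set_option autoImplicit false

noncomputable section

open IsLocalRing GaloisRep Fermat.Agent.Deformation

namespace Fermat.Agent.TwoAdic

local notation "Qb" => AlgebraicClosure ℚ

local instance isAlgebraicQbar_firstOrder : Algebra.IsAlgebraic ℚ Qb := AlgebraicClosure.isAlgebraic ℚ

local instance isAlgClosureQbar_firstOrder : IsAlgClosure ℚ Qb := ⟨inferInstance, inferInstance⟩

local instance isGaloisQbar_firstOrder : IsGalois ℚ Qb := IsAlgClosure.isGalois ℚ Qb

open MordellWeil in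
/-- A finite index subgroup on which every first order deformation is trivial. -/
theorem exists_finiteIndex_forall_eq_one (S : Finset ℕ) (L : IntermediateField ℚ Qb)
    [FiniteDimensional ℚ L] :
    ∃ H : Subgroup Γ, H.FiniteIndex ∧ ∀ (A : Type) (_ : CommRing A) (r : Γ →* Mat A),
      (2 : A) = 0 → GaloisFactorsThroughFiniteLevel r →
      (∀ σ ∈ L.fixingSubgroup, ∀ τ ∈ L.fixingSubgroup, (r σ - 1) * (r τ - 1) = 0) →
      (∀ q : ℕ, q.Prime → q ∉ S → ∀ P : ValuationSubring Qb, P.LiesOverPrime q →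
        ∀ σ ∈ P.inertiaSubgroupIn ℚ, r σ = 1) →
      ∀ σ ∈ H, r σ = 1 := by
  classical
  let m : ℕ := ∏ q ∈ S.filter (· ≠ 0), q
  have hm : m ≠ 0 := Finset.prod_ne_zero_iff.mpr fun q hq => (Finset.mem_filter.mp hq).2
  have := (finite_isQuadraticUnramified L hm).to_subtype
  let H : Subgroup Γ := L.fixingSubgroup ⊓ ⨅ N : {N | IsQuadraticUnramified L m N}, (N : Subgroup Γ)
  have hfi : ∀ U : Subgroup Γ, IsOpen (U : Set Γ) → U.FiniteIndex := fun U hU => by
    have : Finite (Γ ⧸ U) := Subgroup.quotient_finite_of_isOpen U hU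
    exact Subgroup.finiteIndex_of_finite_quotient
  have : (⨅ N : {N | IsQuadraticUnramified L m N}, (N : Subgroup Γ)).FiniteIndex :=
    Subgroup.finiteIndex_iInf fun N => hfi _ N.2.isOpen
  have : L.fixingSubgroup.FiniteIndex := hfi _ (IntermediateField.fixingSubgroup_isOpen L)
  refine ⟨H, inferInstance, fun A _ r h2 hfac hsq hur σ hσ => ?_⟩
  have hσL : σ ∈ L.fixingSubgroup := hσ.1
  let : Module (ZMod 2) A := AddCommGroup.zmodModule fun a => by
    rw [nsmul_eq_mul, Nat.cast_ofNat, h2, zero_mul]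
  refine sub_eq_zero.mp (Matrix.ext fun i j => ?_)
  rw [Matrix.zero_apply]
  refine (Module.forall_dual_apply_eq_zero_iff (ZMod 2) _).mp fun φ => ?_
  have hadd : ∀ σ ∈ L.fixingSubgroup, ∀ τ ∈ L.fixingSubgroup,
      φ ((r (σ * τ) - 1) i j) = φ ((r σ - 1) i j) + φ ((r τ - 1) i j) := by
    intro σ hσ τ hτ
    rw [← map_add, ← Matrix.add_apply]
    congr 2
    refine congrArg (fun M : Mat A => M i j) ?_
    rw [map_mul, ← sub_eq_zero, ← hsq σ hσ τ hτ]
    noncomm_ring
  have hone : φ ((r 1 - 1) i j) = 0 := by simp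
  let N : Subgroup Γ :=
    { carrier := {τ | τ ∈ L.fixingSubgroup ∧ φ ((r τ - 1) i j) = 0}
      one_mem' := ⟨Subgroup.one_mem _, hone⟩
      mul_mem' := fun {a b} ha hb => ⟨Subgroup.mul_mem _ ha.1 hb.1, by
        rw [hadd a ha.1 b hb.1, ha.2, hb.2, add_zero]⟩
      inv_mem' := fun {a} ha => ⟨Subgroup.inv_mem _ ha.1, by
        have h := hadd a ha.1 a⁻¹ (Subgroup.inv_mem _ ha.1)
        rw [mul_inv_cancel, hone, ha.2, zero_add] at h
        exact h.symm⟩ }
  have hN : IsQuadraticUnramified L m N :=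
    { le := fun τ hτ => hτ.1
      isOpen := by
        obtain ⟨L', hL', h1⟩ := hfac
        refine Subgroup.isOpen_mono
          (show L.fixingSubgroup ⊓ L'.fixingSubgroup ≤ N from fun τ hτ => ⟨hτ.1, ?_⟩)
          ((IntermediateField.fixingSubgroup_isOpen L).inter
            (IntermediateField.fixingSubgroup_isOpen L'))
        rw [h1 τ fun x hx => hτ.2 ⟨x, hx⟩, sub_self, Matrix.zero_apply, map_zero]
      index_two := fun a ha b hb han hbn => ⟨Subgroup.mul_mem _ ha hb, by
        rw [hadd a ha b hb]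
        have h1 : φ ((r a - 1) i j) ≠ 0 := fun h => han ⟨ha, h⟩
        have h3 : φ ((r b - 1) i j) ≠ 0 := fun h => hbn ⟨hb, h⟩
        revert h1 h3
        generalize φ ((r a - 1) i j) = x
        generalize φ ((r b - 1) i j) = y
        revert x y; decide⟩
      inertia_le := fun ℓ hℓ hℓm P hP τ hτ hτL => ⟨hτL, by
        have hℓS : ℓ ∉ S := fun h => hℓm
          (Finset.dvd_prod_of_mem _ (Finset.mem_filter.mpr ⟨h, hℓ.ne_zero⟩))
        rw [hur ℓ hℓ hℓS P hP τ hτ, sub_self, Matrix.zero_apply, map_zero]⟩ }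
  exact ((Subgroup.mem_iInf.mp hσ.2) ⟨N, hN⟩).2

/-- Levels of first order have bounded index. -/
theorem exists_natCard_level_le {ρbar : ResidualGaloisRep (ResidueField ℤ_[2])}
    (bbar : Module.Basis (Fin 2) (ResidueField ℤ_[2]) ρbar.V) (x y : Γ →₀ ℤ_[2]) (S : Finset ℕ)
    {𝒟 : ∀ ⦃A : Type⦄ [CommRing A] [IsLocalRing A] [Algebra ℤ_[2] A], GaloisRepAdic A → Prop}
    (hur : ∀ ⦃A : Type⦄ [CommRing A] [IsLocalRing A] [Algebra ℤ_[2] A] (ρ : GaloisRepAdic A),
      𝒟 ρ → ∀ q : ℕ, q.Prime → q ∉ S → ρ.IsUnramifiedAt q) :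
    ∃ N : ℕ, ∀ I, IsLevel (residualMatrix ρbar bbar) x y 𝒟 I →
      frameMax (residualMatrix ρbar bbar) ^ 2 ≤ I →
      (∀ c ∈ maximalIdeal ℤ_[2], MvPolynomial.C c ∈ I) →
      Nat.card (FrameRing ℤ_[2] ⧸ I) ≤ N := by
  classical
  set rbar := residualMatrix ρbar bbar with hrbar
  obtain ⟨L, hL, hL1⟩ := ρbar.factorsThroughFiniteLevel
  have hbarL : ∀ σ ∈ L.fixingSubgroup, rbar σ = 1 := fun σ hσ => by
    rw [hrbar, residualMatrix_apply, hL1 σ fun z hz => hσ ⟨z, hz⟩, LinearMap.toMatrix_one]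
  obtain ⟨H, hH, hH1⟩ := exists_finiteIndex_forall_eq_one S L
  have : Finite (Γ ⧸ H) := Subgroup.finite_quotient_of_finiteIndex
  have : Fintype (Γ ⧸ H) := Fintype.ofFinite _
  let Idx := Option ((Γ ⧸ H) × Fin 2 × Fin 2)
  refine ⟨Nat.card (Idx → ZMod 2), fun I hI hI2 hIC => ?_⟩
  obtain ⟨A, _, _, _, r, hr, hsurj, rfl⟩ := hI
  have hker : ∀ a, a ∈ frameMax rbar → frameHom (𝒪 := ℤ_[2]) r a ∈ maximalIdeal A := fun a ha =>
    (hr.frameHom_mem_iff a).mpr ha
  have hmax : ∀ z ∈ maximalIdeal A, ∃ a ∈ frameMax rbar, frameHom (𝒪 := ℤ_[2]) r a = z := by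
    intro z hz
    obtain ⟨a, rfl⟩ := hsurj z
    exact ⟨a, (hr.frameHom_mem_iff a).mp hz, rfl⟩
  have hsq : ∀ a ∈ maximalIdeal A, ∀ b ∈ maximalIdeal A, a * b = 0 := by
    intro a ha b hb
    obtain ⟨a, ha', rfl⟩ := hmax a ha
    obtain ⟨b, hb', rfl⟩ := hmax b hb
    rw [← map_mul]
    exact hI2 (pow_two (frameMax rbar) ▸ Ideal.mul_mem_mul ha' hb')
  have hC : ∀ c ∈ maximalIdeal ℤ_[2], algebraMap ℤ_[2] A c = 0 := fun c hc => by
    rw [← (frameHom (𝒪 := ℤ_[2]) r).commutes c]
    exact hIC c hc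
  have h2mem : (2 : ℤ_[2]) ∈ maximalIdeal ℤ_[2] := by
    have : ((2 : ℕ) : ℤ_[2]) ∈ maximalIdeal ℤ_[2] := by
      rw [PadicInt.maximalIdeal_eq_span_p]; exact Ideal.mem_span_singleton_self _
    exact_mod_cast this
  have h2 : (2 : A) = 0 := by rw [← map_ofNat (algebraMap ℤ_[2] A) 2]; exact hC 2 h2mem
  have hlocal := hr.test.isLocalHom
  have hmem : ∀ σ ∈ L.fixingSubgroup, ∀ i j, (r σ - 1) i j ∈ maximalIdeal A := by
    intro σ hσ i j
    obtain ⟨c, hc⟩ := residue_surjective (rbar σ i j)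
    have h := hr.lift c σ i j hc
    rw [hbarL σ hσ] at hc
    by_cases hij : i = j
    · subst hij
      rw [Matrix.one_apply_eq] at hc
      have hc1 : c - 1 ∈ maximalIdeal ℤ_[2] := by
        rw [← residue_eq_zero_iff, map_sub, hc, map_one, sub_self]
      have := hC _ hc1
      rw [map_sub, map_one, sub_eq_zero] at this
      rwa [this, ← Matrix.one_apply_eq (α := A) i, ← Matrix.sub_apply] at h
    · rw [Matrix.one_apply_ne hij, residue_eq_zero_iff] at hc
      rw [hC c hc, sub_zero] at h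
      rwa [Matrix.sub_apply, Matrix.one_apply_ne hij, sub_zero]
  have hprod : ∀ σ ∈ L.fixingSubgroup, ∀ τ ∈ L.fixingSubgroup,
      (r σ - 1) * (r τ - 1) = 0 := by
    intro σ hσ τ hτ
    refine Matrix.ext fun i j => ?_
    rw [Matrix.mul_apply, Matrix.zero_apply]
    exact Finset.sum_eq_zero fun k _ => hsq _ (hmem σ hσ i k) _ (hmem τ hτ k j)
  have hunr : ∀ q : ℕ, q.Prime → q ∉ S → ∀ P : ValuationSubring Qb, P.LiesOverPrime q →
      ∀ σ ∈ P.inertiaSubgroupIn ℚ, r σ = 1 := by
    intro q hq hqS P hP σ hσ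
    have h := hur _ hr.isType q hq hqS P hP σ hσ
    rw [← DFunLike.congr_fun (matOf_repOf r (IsCont.of_factors r hr.factors)) σ, matOf_apply, h,
      LinearMap.toMatrix_one]
  have hfix := hH1 A inferInstance r h2 hr.factors hprod hunr
  have hout : ∀ σ, r σ = r (QuotientGroup.mk (s := H) σ).out := by
    intro σ
    obtain ⟨h, hh⟩ := QuotientGroup.mk_out_eq_mul H σ
    rw [hh, map_mul, hfix _ h.2, mul_one]
  let : Module (ZMod 2) A := AddCommGroup.zmodModule fun a => by
    rw [nsmul_eq_mul, Nat.cast_ofNat, h2, zero_mul]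
  let v : Idx → A := fun o => o.elim 1 fun t => r t.1.out t.2.1 t.2.2
  let M : Submodule (ZMod 2) A := Submodule.span (ZMod 2) (Set.range v)
  have hscal : ∀ c : ℤ_[2], algebraMap ℤ_[2] A c = 0 ∨ algebraMap ℤ_[2] A c = 1 := by
    intro c
    obtain ⟨hn, hc⟩ := PadicInt.zmodRepr_spec c
    have : algebraMap ℤ_[2] A c = (PadicInt.zmodRepr c : A) := by
      have h := hC _ hc
      rwa [map_sub, map_natCast, sub_eq_zero] at h
    rw [this]
    have hlt : PadicInt.zmodRepr c < 2 := PadicInt.zmodRepr_lt_p c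
    interval_cases h : PadicInt.zmodRepr c <;> simp
  have hclass : ∀ z : A, z ∈ maximalIdeal A ∨ z - 1 ∈ maximalIdeal A := by
    intro z
    obtain ⟨c, hc⟩ := hr.test.residue_surjective (residue A z)
    have hc' : z - algebraMap ℤ_[2] A c ∈ maximalIdeal A := by
      rw [← residue_eq_zero_iff, map_sub, sub_eq_zero]; exact hc.symm
    rcases hscal c with e | e <;> rw [e] at hc'
    · exact Or.inl (by simpa using hc')
    · exact Or.inr hc'
  have h1M : (1 : A) ∈ M := Submodule.subset_span ⟨none, rfl⟩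
  have hmul : ∀ a ∈ M, ∀ b ∈ M, a * b ∈ M := by
    intro a ha b hb
    have hself : ∀ c : A, c + c = 0 := fun c => by rw [← two_mul, h2, zero_mul]
    rcases hclass a with hA | hA <;> rcases hclass b with hB | hB
    · rw [hsq a hA b hB]; exact M.zero_mem
    · have := hsq a hA _ hB
      rw [show a * b = a by linear_combination this]; exact ha
    · have := hsq _ hA b hB
      rw [show a * b = b by linear_combination this]; exact hb
    · have := hsq _ hA _ hB
      rw [show a * b = a + b - 1 by linear_combination this]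
      exact M.sub_mem (M.add_mem ha hb) h1M
  have htop : M = ⊤ := by
    suffices h : ∀ z, z ∈ M from eq_top_iff.mpr fun z _ => h z
    intro z
    obtain ⟨p, rfl⟩ := hsurj z
    induction p using MvPolynomial.induction_on with
    | C c =>
      rw [frameHom, MvPolynomial.aeval_C]
      rcases hscal c with e | e <;> rw [e]
      · exact M.zero_mem
      · exact h1M
    | add p q hp hq => rw [map_add]; exact M.add_mem hp hq
    | mul_X p t hp =>
      rw [map_mul]
      refine hmul _ hp _ ?_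
      obtain ⟨σ, i, j⟩ := t
      rw [frameHom_X, hout σ]
      exact Submodule.subset_span ⟨some (QuotientGroup.mk σ, i, j), rfl⟩
  have hΛ : Function.Surjective (Fintype.linearCombination (ZMod 2) v) := by
    rw [← LinearMap.range_eq_top, Fintype.range_linearCombination]
    exact htop
  calc Nat.card (FrameRing ℤ_[2] ⧸ RingHom.ker (frameHom (𝒪 := ℤ_[2]) r))
      = Nat.card A := Nat.card_congr
        (Ideal.quotientKerAlgEquivOfSurjective hsurj).toEquiv
    _ ≤ Nat.card (Idx → ZMod 2) := Nat.card_le_card_of_surjective _ hΛ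

end Fermat.Agent.TwoAdic
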