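import Fermat.Agent.Deformation.Matrix
import Fermat.Prelude.Thm_IsLocalRing_isAdicComplete_of_module_finite
import Mathlib.NumberTheory.Padics.RingHoms
import Mathlib.RingTheory.IntegralClosure.IsIntegralClosure.Basic

/-!
# Adjoining signs to a complete local 2-adic ring

`R₀[X_v : v ∈ ι] / J`, where `J` contains all `X_v ^ 2 - 1` and lies in the kernel of the point
`X_v ↦ 1` of the residue field, is a finite local `R₀`-algebra; it is complete and Noetherian.
-/

set_option autoImplicit false

noncomputable section

open IsLocalRing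

namespace Fermat.Agent.TwoAdic

section Residue

variable {A : Type} [CommRing A] [IsLocalRing A] [Algebra ℤ_[2] A]
  [IsLocalHom (algebraMap ℤ_[2] A)]

theorem two_mem_maximalIdeal : (2 : A) ∈ maximalIdeal A := by
  have h : ((2 : ℕ) : ℤ_[2]) ∈ maximalIdeal ℤ_[2] := by
    rw [PadicInt.maximalIdeal_eq_span_p]; exact Ideal.mem_span_singleton_self _
  have := map_nonunit (algebraMap ℤ_[2] A) _ h
  rwa [map_natCast] at this

/-- A sign is residually trivial. -/
theorem residue_eq_one_of_sq_eq_one {a : A} (h : a ^ 2 = 1) : residue A a = 1 := by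
  have h2 : residue A (2 : A) = 0 := (residue_eq_zero_iff _).mpr two_mem_maximalIdeal
  rw [map_ofNat] at h2
  have : (residue A a - 1) ^ 2 = 0 := by
    have e : (residue A a) ^ 2 = 1 := by rw [← map_pow, h, map_one]
    linear_combination e - (residue A a - 1) * h2
  exact sub_eq_zero.mp (pow_eq_zero_iff two_ne_zero |>.mp this)

end Residue

section Adjoin

variable {R : Type} [CommRing R] [IsLocalRing R] {ι : Type} [Fintype ι]
  (J : Ideal (MvPolynomial ι R))

/-- The residual point `X_v ↦ 1`. -/
def onesPoint (R : Type) [CommRing R] [IsLocalRing R] (ι : Type) :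
    MvPolynomial ι R →+* ResidueField R :=
  MvPolynomial.eval₂Hom (residue R) fun _ => 1

omit [IsLocalRing R] in
theorem finite_quotient_of_sq (hsq : ∀ i, MvPolynomial.X i ^ 2 - 1 ∈ J) :
    Module.Finite R (MvPolynomial ι R ⧸ J) := by
  have hint : ∀ i, IsIntegral R (Ideal.Quotient.mk J (MvPolynomial.X i : MvPolynomial ι R)) := by
    intro i
    refine ⟨Polynomial.X ^ 2 - Polynomial.C 1, Polynomial.monic_X_pow_sub_C 1 two_ne_zero, ?_⟩
    have := Ideal.Quotient.eq_zero_iff_mem.mpr (hsq i)
    rw [map_sub, map_pow, map_one] at this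
    simpa using this
  let S : Finset (MvPolynomial ι R ⧸ J) := by
    classical exact Finset.univ.image fun i => Ideal.Quotient.mk J (MvPolynomial.X i)
  have hfg : (Algebra.adjoin R (S : Set (MvPolynomial ι R ⧸ J))).toSubmodule.FG := by
    refine fg_adjoin_of_finite (Finset.finite_toSet _) fun x hx => ?_
    simp only [S, Finset.coe_image, Finset.coe_univ, Set.image_univ, Set.mem_range] at hx
    obtain ⟨i, rfl⟩ := hx
    exact hint i
  have htop : Algebra.adjoin R (S : Set (MvPolynomial ι R ⧸ J)) = ⊤ := by
    simp only [S, Finset.coe_image, Finset.coe_univ, Set.image_univ]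
    rw [show (Set.range fun i => Ideal.Quotient.mk J (MvPolynomial.X i : MvPolynomial ι R)) =
      Ideal.Quotient.mkₐ R J '' Set.range MvPolynomial.X from Set.range_comp _ _,
      ← AlgHom.map_adjoin, MvPolynomial.adjoin_range_X, Algebra.map_top, AlgHom.range_eq_top]
    exact Ideal.Quotient.mk_surjective
  rw [htop, Algebra.top_toSubmodule] at hfg
  exact Module.finite_def.mpr hfg

variable (hsq : ∀ i, MvPolynomial.X i ^ 2 - 1 ∈ J) (hJ : J ≤ RingHom.ker (onesPoint R ι))
  (h2 : (2 : R) ∈ maximalIdeal R)

include hsq hJ h2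

theorem isLocalRing_quotient_of_sq : IsLocalRing (MvPolynomial ι R ⧸ J) := by
  let χ : (MvPolynomial ι R ⧸ J) →+* ResidueField R :=
    Ideal.Quotient.lift J (onesPoint R ι) fun a ha => RingHom.mem_ker.mp (hJ ha)
  have hχs : Function.Surjective χ := fun z => by
    obtain ⟨a, rfl⟩ := residue_surjective z
    exact ⟨Ideal.Quotient.mk J (MvPolynomial.C a), by simp [χ, onesPoint]⟩
  refine IsLocalRing.of_unique_max_ideal ⟨RingHom.ker χ, RingHom.ker_isMaximal_of_surjective χ hχs,
    fun M hM => ((RingHom.ker_isMaximal_of_surjective χ hχs).eq_of_le hM.ne_top ?_).symm⟩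
  have : Module.Finite R (MvPolynomial ι R ⧸ J) := finite_quotient_of_sq J hsq
  have hR : maximalIdeal R ≤ M.comap (algebraMap R (MvPolynomial ι R ⧸ J)) :=
    (IsLocalRing.eq_maximalIdeal (Ideal.isMaximal_comap_of_isIntegral_of_isMaximal M)).ge
  have hX : ∀ i, Ideal.Quotient.mk J (MvPolynomial.X i : MvPolynomial ι R) - 1 ∈ M := by
    intro i
    have he := Ideal.Quotient.eq_zero_iff_mem.mpr (hsq i)
    rw [map_sub, map_pow, map_one] at he
    set X := Ideal.Quotient.mk J (MvPolynomial.X i : MvPolynomial ι R)
    have h2M : (2 : MvPolynomial ι R ⧸ J) ∈ M := by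
      have h := hR h2
      rwa [Ideal.mem_comap, map_ofNat] at h
    refine hM.isPrime.mem_of_pow_mem 2 ?_
    rw [show (X - 1) ^ 2 = 2 * (1 - X) by linear_combination he]
    exact M.mul_mem_right _ h2M
  let ev : MvPolynomial ι R →+* R := MvPolynomial.eval fun _ => 1
  have key : ∀ p, Ideal.Quotient.mk J p - algebraMap R _ (ev p) ∈ M := by
    intro p
    induction p using MvPolynomial.induction_on with
    | C c =>
      rw [show ev (MvPolynomial.C c) = c by simp [ev], ← MvPolynomial.algebraMap_eq,
        Ideal.Quotient.mk_algebraMap, sub_self]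
      exact M.zero_mem
    | add p q hp hq =>
      rw [map_add, map_add, map_add]
      convert M.add_mem hp hq using 1
      ring
    | mul_X p i hp =>
      rw [map_mul, map_mul, map_mul, show ev (MvPolynomial.X i) = 1 by simp [ev], map_one, mul_one]
      convert M.add_mem (M.mul_mem_right (Ideal.Quotient.mk J (MvPolynomial.X i)) hp)
        (M.mul_mem_left (algebraMap R _ (ev p)) (hX i)) using 1
      ring
  intro z hz
  obtain ⟨p, rfl⟩ := Ideal.Quotient.mk_surjective z
  have hev : ev p ∈ maximalIdeal R := by
    rw [← residue_eq_zero_iff, ← hz]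
    show residue R (ev p) = onesPoint R ι p
    clear hz
    induction p using MvPolynomial.induction_on with
    | C c => simp [ev, onesPoint]
    | add p q hp hq => rw [map_add, map_add, map_add, hp, hq]
    | mul_X p i hp => rw [map_mul, map_mul, map_mul, hp]; simp [ev, onesPoint]
  simpa using M.add_mem (key p) (hR hev)

end Adjoin

end Fermat.Agent.TwoAdic
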