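import Fermat.Agent.Deformation.Universal
import Fermat.Agent.TwoAdic.Universal.Eqns
import Fermat.Agent.TwoAdic.Universal.FirstOrder
import Fermat.Agent.TwoAdic.Universal.Residual
import Fermat.Agent.TwoAdic.Universal.Ring

/-!
# Existence of the universal ring of deformations with signed lines

`R' = R₀[X_v : v ∈ S] / J`: here `R₀` is the universal ring for cyclotomic determinant and
unramified outside `S`, and `J` is generated by `X_v ^ 2 - 1` and the line equations of the
universal matrices with `u_v = X_v`.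
-/

set_option autoImplicit false

noncomputable section

open IsLocalRing Module GaloisRep Fermat.Agent.Deformation

namespace Fermat.Agent.TwoAdic

/-- Residually unit columns stay unit. -/
theorem exists_isUnit_pivot {A : Type} [CommRing A] [IsLocalRing A]
    {K : Type} [Field K] (χ : K →+* ResidueField A) {r : Γ →* Mat A} {rbar : Γ →* Mat K}
    (hr : mapRep (residue A) r = mapRep χ rbar) {F : Γ} {u : A} (hu : residue A u = 1)
    {i j : Fin 2} (hij : pivot (rbar F) 1 j i ≠ 0) :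
    ∃ i, IsUnit (pivot (r F) u j i) := by
  refine ⟨i, IsLocalRing.notMem_maximalIdeal.mp fun hmem => hij (χ.injective ?_)⟩
  have e1 := congrFun (map_pivot (residue A) (r F) u j) i
  have e2 := congrFun (map_pivot χ (rbar F) 1 j) i
  have e3 : (r F).map (residue A) = (rbar F).map χ := DFunLike.congr_fun hr F
  rw [Function.comp_apply] at e1 e2
  rw [e2, map_one, ← e3, ← hu, ← e1, map_zero]
  exact (residue_eq_zero_iff _).mpr hmem

/-- The universal ring of deformations with signed lines exists. -/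
theorem nonempty_signedRingData {S : Finset ℕ}
    {ρbar : ResidualGaloisRep (ResidueField ℤ_[2])} (pl : SignedPlaces S)
    (habs : ρbar.IsAbsolutelyIrreducible) (hbar : IsResidualSigned ρbar pl) :
    Nonempty (SignedRingData ρbar pl) := by
  classical
  have h2 : ((2 : ℕ) : ℤ_[2]) ∈ maximalIdeal ℤ_[2] := by
    rw [PadicInt.maximalIdeal_eq_span_p]; exact Ideal.mem_span_singleton_self _
  let : Finite (ResidueField ℤ_[2]) := by
    refine Finite.of_surjective (fun b : Bool => if b then (1 : ResidueField ℤ_[2]) else 0) fun z => ?_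
    rcases residueField_two_eq_zero_or_one z with h | h
    · exact ⟨false, h.symm⟩
    · exact ⟨true, h.symm⟩
  let 𝒟₀ : ∀ ⦃A : Type⦄ [CommRing A] [IsLocalRing A] [Algebra ℤ_[2] A], GaloisRepAdic A → Prop :=
    fun _A _ _ _ ρ => ρ.DetIsCyclotomic 2 ∧ ∀ q : ℕ, q.Prime ∧ q ∉ S → ρ.IsUnramifiedAt q
  have h𝒟 : IsDeformationCondition ℤ_[2] 𝒟₀ :=
    ((RT.isDescending_detIsCyclotomic two_ne_zero).and
      (RT.isDescending_forall (p := 2) (fun q : ℕ => q.Prime ∧ q ∉ S) _
        fun q _ => RT.isDescending_isUnramifiedAt q)).isDeformationCondition h2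
  have hres := hbar.isSignedType
  let bbar : Basis (Fin 2) (ResidueField ℤ_[2]) ρbar.V := Module.finBasisOfFinrankEq _ ρbar.V ρbar.finrank_eq
  set rbar := residualMatrix ρbar bbar with hrbar
  obtain ⟨x, y, hp⟩ := exists_isNormPair_residualMatrix habs bbar
  obtain ⟨D0⟩ := nonempty_deformationRingData_of_bound habs h𝒟
    ⟨hres.det, fun q hq => hres.unramified q hq.1 hq.2⟩ bbar hp
    (exists_natCard_level_le bbar x y S fun _A _ _ _ ρ h q hq hqS => h.2 q ⟨hq, hqS⟩)
  let R₀ := D0.R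
  let ψ : ResidueField ℤ_[2] →+* ResidueField R₀ := ResidueField.map (algebraMap ℤ_[2] R₀)
  obtain ⟨b, hb⟩ := exists_lift_basis ρbar bbar D0.ρ ψ D0.residual_isEquiv
  set r0 := matOf D0.ρ.ρ b with hr0
  change mapRep (residue R₀) r0 = mapRep ψ rbar at hb
  -- the pivot columns
  have hpiv : ∀ v, ∃ j i, pivot (rbar (pl.frob v)) 1 j i ≠ 0 := by
    intro v
    by_contra hzero
    push Not at hzero
    refine hbar.frob_ne_one v ((LinearMap.toMatrix bbar bbar).injective ?_)
    rw [LinearMap.toMatrix_one]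
    refine Matrix.ext fun i j => sub_eq_zero.mp ?_
    have := hzero j i
    rw [pivot, one_smul, Matrix.sub_apply] at this
    exact this
  choose j i hij using hpiv
  have hbase : ∀ v, ∀ a ∈ lineVals rbar (pl.place v) (pl.frob v) 1 (j v), a = 0 := by
    intro v
    exact (hasSignedLineAt_iff (ρ := GaloisRepAdic.ofResidualGaloisRep ρbar) bbar
      ⟨i v, isUnit_iff_ne_zero.mpr (hij v)⟩).mp (hres.line v)
  -- the ring
  let rX : Γ →* Mat (MvPolynomial S R₀) := mapRep MvPolynomial.C r0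
  let gens : Set (MvPolynomial S R₀) :=
    (Set.range fun v : S => MvPolynomial.X v ^ 2 - 1) ∪
      ⋃ v : S, lineVals rX (pl.place v) (pl.frob v) (MvPolynomial.X v) (j v)
  let J : Ideal (MvPolynomial S R₀) := Ideal.span gens
  have hsq : ∀ v : S, MvPolynomial.X v ^ 2 - 1 ∈ J := fun v =>
    Ideal.subset_span (Or.inl ⟨v, rfl⟩)
  have hJ : J ≤ RingHom.ker (onesPoint R₀ S) := by
    rw [Ideal.span_le]
    rintro a (⟨v, rfl⟩ | ha)
    · simp [onesPoint]
    obtain ⟨v, hv⟩ := Set.mem_iUnion.mp ha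
    refine (map_lineVals_eq_zero_iff (onesPoint R₀ S)).mpr ?_ a hv
    have e : mapRep (onesPoint R₀ S) rX = mapRep ψ rbar := by
      rw [mapRep_mapRep, ← hb]
      congr 1
      exact RingHom.ext fun c => by simp [onesPoint]
    rw [e, show onesPoint R₀ S (MvPolynomial.X v) = ψ 1 by simp [onesPoint]]
    exact (map_lineVals_eq_zero_iff ψ).mp fun a ha => by rw [hbase v a ha, map_zero]
  have h2R : (2 : R₀) ∈ maximalIdeal R₀ := two_mem_maximalIdeal
  let Q := MvPolynomial S R₀ ⧸ J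
  let : Module.Finite R₀ Q := finite_quotient_of_sq J hsq
  let : IsLocalRing Q := isLocalRing_quotient_of_sq J hsq hJ h2R
  have : IsNoetherianRing Q := IsNoetherianRing.of_finite R₀ Q
  let χ : Q →+* ResidueField R₀ :=
    Ideal.Quotient.lift J (onesPoint R₀ S) fun a ha => RingHom.mem_ker.mp (hJ ha)
  let ι₀ : R₀ →ₐ[ℤ_[2]] Q :=
    (Ideal.Quotient.mkₐ ℤ_[2] J).comp (IsScalarTower.toAlgHom ℤ_[2] R₀ (MvPolynomial S R₀))
  have hι : ∀ c, ι₀ c = Ideal.Quotient.mk J (MvPolynomial.C c) := fun c => rfl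
  have hχι : ∀ c, χ (ι₀ c) = residue R₀ c := fun c =>
    (Ideal.Quotient.lift_mk J _ _).trans (MvPolynomial.eval₂Hom_C _ _ c)
  have hιl : IsLocalHom (ι₀ : R₀ →+* Q) := ⟨fun c hc => by
    have h := hc.map χ
    rw [AlgHom.coe_toRingHom, hχι] at h
    exact IsUnit.of_map (residue R₀) c h⟩
  have : IsAdicComplete (maximalIdeal Q) Q := by
    have : IsLocalHom (algebraMap R₀ Q) := ⟨fun c hc => hιl.map_nonunit c hc⟩
    exact IsLocalRing.isAdicComplete_of_module_finite (𝒪 := R₀)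
  have hlocQ : IsLocalHom (algebraMap ℤ_[2] Q) := ⟨fun c hc => by
    rw [← ι₀.commutes c] at hc
    exact IsUnit.of_map (algebraMap ℤ_[2] R₀) c (hιl.map_nonunit _ hc)⟩
  let u : S → Q := fun v => Ideal.Quotient.mk J (MvPolynomial.X v)
  have hu : ∀ v, u v ^ 2 = 1 := fun v => by
    have := Ideal.Quotient.eq_zero_iff_mem.mpr (hsq v)
    rwa [map_sub, map_pow, map_one, sub_eq_zero] at this
  let rQ : Γ →* Mat Q := mapRep (ι₀ : R₀ →+* Q) r0
  have hcQ : IsCont rQ := (isCont_matOf D0.ρ b).mapRep _ hιl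
  let ρQ : GaloisRepAdic Q := repOf rQ hcQ
  have heQ : (D0.ρ.baseChangeAlong (ι₀ : R₀ →+* Q) hιl).IsEquiv ρQ :=
    baseChangeAlong_isEquiv_repOf D0.ρ b _ hιl rfl hcQ
  have hresQ : mapRep (residue Q) rQ =
      mapRep (ResidueField.map (algebraMap ℤ_[2] Q)) rbar := by
    have e1 : (residue Q).comp (ι₀ : R₀ →+* Q) =
        (ResidueField.map (ι₀ : R₀ →+* Q)).comp (residue R₀) :=
      RingHom.ext fun c => (ResidueField.map_residue _ c).symm
    rw [mapRep_mapRep, e1, ← mapRep_mapRep, hb, mapRep_mapRep]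
    congr 1
    refine RingHom.ext fun z => ?_
    obtain ⟨c, rfl⟩ := residue_surjective z
    simp [ψ, ResidueField.map_residue]
  have htype : IsSignedType pl ρQ u := by
    refine ⟨?_, fun q hq hqS => ?_, hu, fun v => ?_⟩
    · exact Density.adic_detIsCyclotomic_of_isEquiv heQ
        (RT.detIsCyclotomic_baseChangeAlong _ hιl D0.isOfType.1)
    · exact Density.adic_isUnramifiedAt_of_isEquiv heQ
        ((RT.isDescending_isUnramifiedAt (p := 2) q).baseChange _ hιl (D0.isOfType.2 q ⟨hq, hqS⟩))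
    · have hm : matOf ρQ.ρ (stdBasis rQ hcQ) = rQ := matOf_repOf rQ hcQ
      refine (hasSignedLineAt_iff (stdBasis rQ hcQ) (j := j v) ?_).mpr ?_
      · rw [hm]
        exact exists_isUnit_pivot _ hresQ (residue_eq_one_of_sq_eq_one (hu v)) (hij v)
      · rw [hm]
        have e : rQ = mapRep (Ideal.Quotient.mk J) rX := by rw [mapRep_mapRep]; rfl
        rw [e]
        exact (map_lineVals_eq_zero_iff (Ideal.Quotient.mk J)).mp fun a ha =>
          Ideal.Quotient.eq_zero_iff_mem.mpr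
            (Ideal.subset_span (Or.inr (Set.mem_iUnion.mpr ⟨v, ha⟩)))
  have hresEquiv : ρQ.residual.IsEquiv
      (ρbar.baseChangeAlong (ResidueField.map (algebraMap ℤ_[2] Q))) :=
    residual_isEquiv_of_map_eq ρbar bbar ρQ (stdBasis rQ hcQ) _ (by rw [matOf_repOf]; exact hresQ)
  have hsurjQ : Function.Surjective (residue Q ∘ algebraMap ℤ_[2] Q) := by
    intro z
    obtain ⟨q, rfl⟩ := residue_surjective z
    obtain ⟨c, hc⟩ := D0.residue_surjective (χ q)
    refine ⟨c, ?_⟩
    have hker : q - algebraMap ℤ_[2] Q c ∈ maximalIdeal Q := by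
      have hmax : (RingHom.ker χ).IsMaximal := RingHom.ker_isMaximal_of_surjective χ fun z => by
        obtain ⟨a, rfl⟩ := residue_surjective z
        exact ⟨ι₀ a, hχι a⟩
      rw [← IsLocalRing.eq_maximalIdeal hmax, RingHom.mem_ker, map_sub, ← ι₀.commutes c, hχι]
      exact sub_eq_zero.mpr hc.symm
    rw [← residue_eq_zero_iff, map_sub, sub_eq_zero] at hker
    exact hker.symm
  refine ⟨{
    R := Q
    residue_surjective := hsurjQ
    ρ := ρQ
    u := u
    isSignedType := htype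
    residual_isEquiv := hresEquiv
    universal := ?_ }⟩
  intro A _ _ _ _ _ _ hA ρA uA hρA hρAres
  obtain ⟨φ₀, ⟨hφ₀l, hφ₀⟩, huniq⟩ := D0.universal A hA ρA
    ⟨hρA.det, fun q hq => hρA.unramified q hq.1 hq.2⟩ hρAres
  obtain ⟨b', hb'⟩ := exists_basis_baseChangeAlong D0.ρ b (φ₀ : R₀ →+* A) hφ₀l
  obtain ⟨e⟩ := hφ₀
  let bA : Basis (Fin 2) A ρA.V := b'.map e.toLinearEquiv
  have hbA : matOf ρA.ρ bA = mapRep (φ₀ : R₀ →+* A) r0 :=
    (matOf_map_equiv _ _ b' e.toLinearEquiv e.map_apply).trans hb'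
  have := hφ₀l
  have hresA : mapRep (residue A) (matOf ρA.ρ bA) =
      mapRep ((ResidueField.map (φ₀ : R₀ →+* A)).comp ψ) rbar := by
    rw [hbA, mapRep_mapRep, ← mapRep_mapRep ψ, ← hb, mapRep_mapRep]
    congr 1
  have hlinesA : ∀ v,
      ∀ a ∈ lineVals (matOf ρA.ρ bA) (pl.place v) (pl.frob v) (uA v) (j v), a = 0 := fun v =>
    (hasSignedLineAt_iff bA (exists_isUnit_pivot _ hresA
      (residue_eq_one_of_sq_eq_one (hρA.sq_eq_one v)) (hij v))).mp (hρA.line v)
  let f : MvPolynomial S R₀ →ₐ[ℤ_[2]] A := MvPolynomial.aevalTower φ₀ uA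
  have hfC : ∀ c, f (MvPolynomial.C c) = φ₀ c := fun c => MvPolynomial.aevalTower_C _ _ c
  have hfX : ∀ v, f (MvPolynomial.X v) = uA v := fun v => MvPolynomial.aevalTower_X _ _ v
  have hfr : mapRep (f : MvPolynomial S R₀ →+* A) rX = matOf ρA.ρ bA := by
    rw [hbA, mapRep_mapRep]
    congr 1
    exact RingHom.ext hfC
  have hfJ : ∀ a ∈ J, f a = 0 := by
    suffices J ≤ RingHom.ker (f : MvPolynomial S R₀ →+* A) from fun a ha => RingHom.mem_ker.mp (this ha)
    rw [Ideal.span_le]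
    rintro a (⟨v, rfl⟩ | ha)
    · simp [hfX, hρA.sq_eq_one v]
    obtain ⟨v, hv⟩ := Set.mem_iUnion.mp ha
    refine (map_lineVals_eq_zero_iff (f : MvPolynomial S R₀ →+* A)).mpr ?_ a hv
    rw [hfr, AlgHom.coe_toRingHom, hfX]
    exact hlinesA v
  let φ : Q →ₐ[ℤ_[2]] A := Ideal.Quotient.liftₐ J f hfJ
  have hφι : ∀ c, φ (ι₀ c) = φ₀ c := hfC
  have hloc : ∀ g : Q →ₐ[ℤ_[2]] A, IsLocalHom (g : Q →+* A) := by
    refine fun g => ⟨fun z hz => by_contra fun hn => ?_⟩
    have hcomap : ((maximalIdeal A).comap (g : Q →+* A)) = maximalIdeal Q := by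
      have : ((maximalIdeal A).comap (g : Q →+* A)).IsMaximal := by
        have hs : Function.Surjective ((residue A).comp (g : Q →+* A)) := fun w => by
          obtain ⟨c, rfl⟩ := hA w
          exact ⟨algebraMap ℤ_[2] Q c, by simp⟩
        have := RingHom.ker_isMaximal_of_surjective _ hs
        rwa [← RingHom.comap_ker, ker_residue] at this
      exact IsLocalRing.eq_maximalIdeal this
    have : z ∈ (maximalIdeal A).comap (g : Q →+* A) := hcomap ▸ hn
    exact this hz
  refine ⟨φ, ⟨hloc φ, ?_, fun v => hfX v⟩, ?_⟩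
  · have hc' := hcQ.mapRep (φ : Q →+* A) (hloc φ)
    have e1 := repOf_baseChangeAlong_isEquiv hcQ (φ : Q →+* A) (hloc φ) rfl hc'
    have e2 : ρA.IsEquiv (repOf (mapRep (φ : Q →+* A) rQ) hc') := isEquiv_repOf ρA bA (by
      rw [hbA, mapRep_mapRep]
      congr 1
      exact RingHom.ext fun c => (hφι c).symm) hc'
    obtain ⟨e1⟩ := e1
    obtain ⟨e2⟩ := e2
    exact ⟨e1.trans e2.symm⟩
  rintro g ⟨hgl, hg, hgu⟩
  let g₀ : R₀ →ₐ[ℤ_[2]] A := g.comp ι₀
  have hg₀l : IsLocalHom (g₀ : R₀ →+* A) := ⟨fun c hc => hιl.map_nonunit c (hgl.map_nonunit _ hc)⟩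
  have hg₀ : g₀ = φ₀ := by
    refine huniq g₀ ⟨hg₀l, ?_⟩
    have hc' := hcQ.mapRep (g : Q →+* A) hgl
    obtain ⟨e1⟩ := repOf_baseChangeAlong_isEquiv hcQ (g : Q →+* A) hgl rfl hc'
    obtain ⟨e2⟩ := baseChangeAlong_isEquiv_repOf D0.ρ b (g₀ : R₀ →+* A) hg₀l
      (r := mapRep (g : Q →+* A) rQ) (by rw [mapRep_mapRep]; rfl) hc'
    obtain ⟨e3⟩ := hg
    exact ⟨(e2.trans e1.symm).trans e3⟩
  refine AlgHom.ext fun z => ?_
  obtain ⟨p, rfl⟩ := Ideal.Quotient.mk_surjective z
  induction p using MvPolynomial.induction_on with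
  | C c => exact (DFunLike.congr_fun hg₀ c).trans (hφι c).symm
  | add p q hp hq => rw [map_add, map_add, map_add, hp, hq]
  | mul_X p v hp =>
    rw [map_mul, map_mul, map_mul, hp]
    exact congrArg _ ((hgu v).trans (hfX v).symm)

end Fermat.Agent.TwoAdic
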